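/-
S48, block BB, sub-block V (architect helper76), layer C1-C3 (helper297).  GENERIC PART.

For `hL : IsLvl F₀ H N`, `Γ(N) ≤ H` and a field `K ⊆ ℚ̄` with a discrete valuation ring `A`:
* `embLL hL : K F₀ →+* LL N`, `texpLL_embLL`;
* `isGood_embLL` : criterion (on generators of `F₀`) for `embLL hL f ∈ L0 N A`;
* `e0 hL hg : K F₀ →+* L0 N A`, `phi0_e0`, `smul_e0_of_mem`;
* `e0_mem_V0_iff` : `V0 N A` induces the Gauss valuation ring on `K F₀`;
* `exists_e0_eq_of_fixed` : the `H`-invariants of `L0 N A` are `e0 (K F₀)`.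
-/
import Fermat.Agent.S48.BB.V.L0
import Fermat.Agent.S48.BB.V.Quot
import Fermat.Agent.S48.BB.U.Basic
import Fermat.Agent.S18.Vert.Trace
import Fermat.Agent.BAD.Bridge.Span

set_option autoImplicit false
set_option linter.unusedSectionVars false

noncomputable section

namespace Fermat.Agent.S48.BB.V

open ModularCurve CongruenceSubgroup IntermediateField
open Fermat.Agent.S24 Fermat.Agent.S24.B Fermat.Agent.GAL.Mult Fermat.Agent.S36.Mod
  Fermat.Agent.S18.Vert Fermat.Agent.S18.Descent Fermat.Agent.S48.BB.U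
open scoped MatrixGroups

/-- `coeffMap` commutes with `q ↦ q ^ n`. -/
theorem Emb.coeffMap_qExpand {R S : Type*} [CommRing R] [CommRing S] (f : R →+* S) (n : ℕ)
    [NeZero n] (x : LaurentSeries R) : coeffMap f (qExpand R n x) = qExpand S n (coeffMap f x) := by
  ext k
  by_cases hk : (n : ℤ) ∣ k
  · obtain ⟨m, rfl⟩ := hk
    rw [coeffMap_coeff, qExpand_coeff_mul, qExpand_coeff_mul, coeffMap_coeff]
  · rw [coeffMap_coeff, qExpand_coeff_of_not_dvd n _ hk, qExpand_coeff_of_not_dvd n _ hk, map_zero]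

/-- A series all of whose coefficients come from `K` comes from `K`. -/
theorem Emb.exists_coeffMap_eq {K L : Type*} [Field K] [Field L] (φ : K →+* L)
    (x : LaurentSeries L) (h : ∀ n, ∃ c : K, φ c = x.coeff n) :
    ∃ s : LaurentSeries K, coeffMap φ s = x := by
  choose c hc using h
  refine ⟨⟨c, x.isPWO_support.mono fun n hn => ?_⟩, ?_⟩
  · simp only [Function.mem_support, ne_eq] at hn ⊢
    intro h0
    apply hn
    apply φ.injective
    rw [hc, h0, map_zero]
  · ext n
    rw [coeffMap_coeff]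
    exact hc n

variable {F₀ : IntermediateField ℚ (LaurentSeries ℚ)} {H : Subgroup SL(2, ℤ)} {N : ℕ} [NeZero N]
variable {K : Type*} [Field K] [Algebra ℚ K] [Algebra K Kbar]

/-- The embedding of `K F₀` in `LL N`. -/
def embLL (hL : IsLvl F₀ H N) : laurentBaseChange K F₀ →+* LL N :=
  (Psi hL).toRingHom.comp (baseChangeMap F₀ (algebraMap K Kbar))

theorem embLL_apply (hL : IsLvl F₀ H N) (f : laurentBaseChange K F₀) :
    embLL hL f = Psi hL (baseChangeMap F₀ (algebraMap K Kbar) f) := rfl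

theorem texpLL_embLL (hL : IsLvl F₀ H N) (f : laurentBaseChange K F₀) :
    texpLL N (embLL hL f) =
      coeffMap (algebraMap K Kbar) (qExpand K N (f : LaurentSeries K)) := by
  rw [embLL_apply, texpLL_Psi, coe_baseChangeMap, Emb.coeffMap_qExpand]

theorem smul_embLL_of_mem (hL : IsLvl F₀ H N) (γ : SL(2, ℤ)) (hγ : γ ∈ H)
    (f : laurentBaseChange K F₀) : γ • embLL hL f = embLL hL f :=
  smul_Psi_of_mem hL γ hγ _

theorem embLL_coeffEmb (hL : IsLvl F₀ H N) (s : LaurentSeries ℚ) (hs : s ∈ F₀) :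
    embLL hL (⟨coeffEmb K s, coeffEmb_mem_laurentBaseChange K hs⟩ : laurentBaseChange K F₀) =
      Psi hL (ofQ ⟨s, hs⟩) := by
  rw [embLL_apply]
  congr 1
  apply Subtype.ext
  rw [coe_baseChangeMap]
  exact coeffMap_coeffEmb' _ s

theorem embLL_algebraMap (hL : IsLvl F₀ H N) (c : K) :
    embLL hL (algebraMap K (laurentBaseChange K F₀) c) =
      algebraMap Kbar (LL N) (algebraMap K Kbar c) := by
  rw [embLL_apply, baseChangeMap_algebraMap, AlgHom.commutes]

theorem isGood_algebraMap (A : ValuationSubring K) (c : K) :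
    IsGood N A (algebraMap Kbar (LL N) (algebraMap K Kbar c)) := by
  refine ⟨fun γ _ => smul_algebraMap_Kbar_LL γ _, fun γ => ?_⟩
  rw [smul_algebraMap_Kbar_LL, AlgHom.commutes]
  exact ⟨algebraMap K (LaurentSeries K) c, IntermediateField.algebraMap_mem _ c,
    coeffMap_algebraMap' _ c⟩

/-- **C1.** Criterion for `embLL hL f ∈ L0 N A`, on generators of `F₀`. -/
theorem isGood_embLL (hL : IsLvl F₀ H N) (hΓ : Gamma N ≤ H) (A : ValuationSubring K)
    (S : Set (LaurentSeries ℚ)) (hS : F₀ = IntermediateField.adjoin ℚ S)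
    (hb : ∀ (s : LaurentSeries ℚ) (hs : s ∈ F₀), s ∈ S → ∀ γ : SL(2, ℤ),
      IsBdd A (texpLL N (γ • Psi hL (ofQ ⟨s, hs⟩))))
    (f : laurentBaseChange K F₀) : IsGood N A (embLL hL f) := by
  obtain ⟨y, hy⟩ := f
  have hadj := laurentBaseChange_eq_adjoin (L := K) hS
  have key : ∀ y : LaurentSeries K, y ∈ IntermediateField.adjoin K (⇑(coeffEmb K) '' S) →
      ∀ hy : y ∈ laurentBaseChange K F₀, embLL hL (⟨y, hy⟩ : laurentBaseChange K F₀) ∈ L0 N A := by
    intro y hy'
    induction hy' using IntermediateField.adjoin_induction with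
    | mem y hyS =>
      intro hy
      obtain ⟨s, hs, rfl⟩ := hyS
      have hsF : s ∈ F₀ := by
        rw [hS]
        exact IntermediateField.subset_adjoin ℚ S hs
      have h1 := embLL_coeffEmb (K := K) hL s hsF
      rw [mem_L0]
      refine ⟨fun γ hγ => smul_embLL_of_mem hL γ (hΓ hγ) _, fun γ => ?_⟩
      rw [show embLL hL (⟨coeffEmb K s, hy⟩ : laurentBaseChange K F₀) = Psi hL (ofQ ⟨s, hsF⟩) from h1]
      exact hb s hsF hs γ
    | algebraMap c =>
      intro hy
      have h1 := embLL_algebraMap (K := K) hL c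
      rw [mem_L0, show embLL hL (⟨algebraMap K (LaurentSeries K) c, hy⟩ : laurentBaseChange K F₀) =
        algebraMap Kbar (LL N) (algebraMap K Kbar c) from h1]
      exact isGood_algebraMap A c
    | add a b ha hb h1 h2 =>
      intro hy
      have h3 : (⟨a + b, hy⟩ : laurentBaseChange K F₀) = ⟨a, hadj ▸ ha⟩ + ⟨b, hadj ▸ hb⟩ := rfl
      rw [h3, map_add]
      exact add_mem (h1 _) (h2 _)
    | inv a ha h1 =>
      intro hy
      have h3 : (⟨a⁻¹, hy⟩ : laurentBaseChange K F₀) = (⟨a, hadj ▸ ha⟩)⁻¹ := rfl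
      rw [h3, map_inv₀]
      exact inv_mem (h1 _)
    | mul a b ha hb h1 h2 =>
      intro hy
      have h3 : (⟨a * b, hy⟩ : laurentBaseChange K F₀) = ⟨a, hadj ▸ ha⟩ * ⟨b, hadj ▸ hb⟩ := rfl
      rw [h3, map_mul]
      exact mul_mem (h1 _) (h2 _)
  exact key y (hadj ▸ hy) hy

variable {A : ValuationSubring K}

/-- The embedding of `K F₀` in `L0 N A`. -/
def e0 (hL : IsLvl F₀ H N) (hg : ∀ f : laurentBaseChange K F₀, IsGood N A (embLL hL f)) :
    laurentBaseChange K F₀ →+* L0 N A :=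
  (embLL hL).codRestrict (L0 N A) hg

theorem coe_e0 (hL : IsLvl F₀ H N) (hg : ∀ f : laurentBaseChange K F₀, IsGood N A (embLL hL f))
    (f : laurentBaseChange K F₀) : ((e0 hL hg f : L0 N A) : LL N) = embLL hL f := rfl

theorem phi0_e0 (hL : IsLvl F₀ H N) (hg : ∀ f : laurentBaseChange K F₀, IsGood N A (embLL hL f))
    (f : laurentBaseChange K F₀) :
    (phi0 N A).toHom (e0 hL hg f) = qExpand K N (f : LaurentSeries K) := by
  rw [phi0_eq_iff, coe_e0, texpLL_embLL]

theorem smul_e0_of_mem (hL : IsLvl F₀ H N)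
    (hg : ∀ f : laurentBaseChange K F₀, IsGood N A (embLL hL f)) (γ : SL(2, ℤ)) (hγ : γ ∈ H)
    (f : laurentBaseChange K F₀) : γ • e0 hL hg f = e0 hL hg f :=
  Subtype.ext (smul_embLL_of_mem hL γ hγ f)

theorem e0_injective (hL : IsLvl F₀ H N)
    (hg : ∀ f : laurentBaseChange K F₀, IsGood N A (embLL hL f)) :
    Function.Injective (e0 hL hg) := (e0 hL hg).injective

/-- **C3.** The `H`-invariants of `L0 N A` are the image of `K F₀`. -/
theorem exists_e0_eq_of_fixed [Algebra.IsAlgebraic K Kbar] (hL : IsLvl F₀ H N)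
    (hg : ∀ f : laurentBaseChange K F₀, IsGood N A (embLL hL f)) (y : L0 N A)
    (hy : ∀ γ ∈ H, γ • y = y) : ∃ f : laurentBaseChange K F₀, e0 hL hg f = y := by
  obtain ⟨x, hx⟩ := exists_Psi_eq_of_fixed hL y.1 fun γ hγ => congrArg Subtype.val (hy γ hγ)
  have h1 : qExpand Kbar N (x : LaurentSeries Kbar) =
      coeffMap (algebraMap K Kbar) ((phi0 N A).toHom y) := by
    rw [cm_phi0, ← hx, texpLL_Psi]
  obtain ⟨s, hs⟩ := Emb.exists_coeffMap_eq (algebraMap K Kbar) (x : LaurentSeries Kbar) fun n =>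
    ⟨((phi0 N A).toHom y).coeff ((N : ℤ) * n), by
      rw [← coeffMap_coeff, ← h1, qExpand_coeff_mul]⟩
  have hsF : s ∈ laurentBaseChange K F₀ :=
    BAD.Bridge.mem_laurentBaseChange_of_coeffMap_mem (F₀ := F₀) (by rw [hs]; exact x.2)
  refine ⟨⟨s, hsF⟩, Subtype.ext ?_⟩
  rw [coe_e0, embLL_apply, ← hx]
  congr 1
  exact Subtype.ext hs

variable [IsDiscreteValuationRing A]

/-- The inclusion `K F₀ ⊆ K((q))` as an integral embedding. -/
def inclEmb (hq : IsQuot A (laurentBaseChange K F₀)) : IntEmb A (laurentBaseChange K F₀) where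
  toHom := (laurentBaseChange K F₀).val.toRingHom
  mem f := le_quotField_of_isQuot hq f.2

theorem val_inclEmb (hq : IsQuot A (laurentBaseChange K F₀)) :
    (inclEmb hq).val = gaussVal A (laurentBaseChange K F₀) hq := by
  ext f
  have h1 := mem_gaussVal_of_le hq (le_quotField_of_isQuot hq) (isQuot_quotField A) f
  have h2 : (inclEmb hq).cod f = IntermediateField.inclusion (le_quotField_of_isQuot hq) f :=
    Subtype.ext rfl
  rw [IntEmb.mem_val_iff', h2, ← h1, bigVal]

/-- **C2.** `V0 N A` induces the Gauss valuation ring on `K F₀`. -/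
theorem e0_mem_V0_iff (hL : IsLvl F₀ H N)
    (hg : ∀ f : laurentBaseChange K F₀, IsGood N A (embLL hL f))
    (hq : IsQuot A (laurentBaseChange K F₀)) (f : laurentBaseChange K F₀) :
    e0 hL hg f ∈ V0 N A ↔ f ∈ gaussVal A (laurentBaseChange K F₀) hq := by
  have h1 : ((phi0 N A).comp (e0 hL hg)).val = ((inclEmb hq).dil N).val :=
    IntEmb.val_congr (RingHom.ext fun f => phi0_e0 hL hg f)
  rw [IntEmb.val_dil, val_inclEmb, IntEmb.val_comp] at h1
  rw [← h1]
  rfl

theorem comap_V0 (hL : IsLvl F₀ H N)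
    (hg : ∀ f : laurentBaseChange K F₀, IsGood N A (embLL hL f))
    (hq : IsQuot A (laurentBaseChange K F₀)) :
    (V0 N A).comap (e0 hL hg) = gaussVal A (laurentBaseChange K F₀) hq := by
  ext f
  exact e0_mem_V0_iff hL hg hq f

end Fermat.Agent.S48.BB.V

end
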