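/-
S48, block BB, sub-block V, layer C1' (sub-architect helper297).  TASK BB-V-E2.
STUB: the statements are FROZEN (keep them verbatim); the task owner replaces every unfinished proof.
Helper lemmas: same file, private or prefixed `Emb.`.

`IsBdd A s := ∃ s₀ ∈ quotField A, coeffMap (algebraMap K Kbar) s₀ = s` (V/L0.lean).
`isBdd_of_coeff`: `Emb.exists_coeffMap_eq` gives `s₀`; its coefficients are in `A` by injectivity of `algebraMap K Kbar`;
`S36.Mod.mem_quotField_of_coeff_mem`.  `IsBdd.qExpand`: `S36.Mod.qExpand_mem_quotField`, `Emb.coeffMap_qExpand`.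
`IsBdd.twist`: `S36.Mod.twist_mem_quotField`, `V.coeffMap_twist` (L0.lean).  `IsBdd.twist_zpow`: apply `IsBdd.twist` to `ζ ^ k`
(`map_zpow`; `(ζ ^ k : K) ∈ A`: `zpow` of a unit of `A`: cases `k = n` / `k = -n`, `Units.val_pow_eq_pow_val`, `pow_mem`, `inv_pow`).
`isBdd_coeffEmb`: `isBdd_of_coeff`, `coeffEmb_coeff`, `map_intCast`, `intCast_mem`.
-/
import Fermat.Agent.S48.BB.V.Emb.Gen

set_option autoImplicit false

noncomputable section

namespace Fermat.Agent.S48.BB.V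

open ModularCurve
open Fermat.Agent.S24 Fermat.Agent.S24.B Fermat.Agent.S36.Mod Fermat.Agent.S18.Vert

variable {K : Type*} [Field K] [Algebra K Kbar] {A : ValuationSubring K}

theorem isBdd_of_coeff {s : LaurentSeries Kbar}
    (h : ∀ n : ℤ, ∃ a ∈ A, algebraMap K Kbar a = s.coeff n) : IsBdd A s := by
  obtain ⟨s₀, hs₀⟩ := Emb.exists_coeffMap_eq (algebraMap K Kbar) s fun n => by
    obtain ⟨a, -, ha⟩ := h n
    exact ⟨a, ha⟩
  refine ⟨s₀, mem_quotField_of_coeff_mem fun n => ?_, hs₀⟩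
  obtain ⟨a, haA, ha⟩ := h n
  have h1 : algebraMap K Kbar (s₀.coeff n) = algebraMap K Kbar a := by
    rw [ha, ← hs₀, coeffMap_coeff]
  rw [(algebraMap K Kbar).injective h1]
  exact haA

theorem IsBdd.qExpand {s : LaurentSeries Kbar} (h : IsBdd A s) (e : ℕ) [NeZero e] :
    IsBdd A (ModularCurve.qExpand Kbar e s) := by
  obtain ⟨s₀, hs₀, rfl⟩ := h
  exact ⟨ModularCurve.qExpand K e s₀, qExpand_mem_quotField e hs₀, Emb.coeffMap_qExpand _ e s₀⟩

theorem IsBdd.twist {s : LaurentSeries Kbar} (h : IsBdd A s) (ζ : Kˣ) (hζ : (ζ : K) ∈ A)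
    (hζ' : ((ζ⁻¹ : Kˣ) : K) ∈ A) :
    IsBdd A (S24.B.twist (Units.map (algebraMap K Kbar : K →* Kbar) ζ) s) := by
  obtain ⟨s₀, hs₀, rfl⟩ := h
  exact ⟨S24.B.twist ζ s₀, twist_mem_quotField ζ hζ hζ' hs₀, coeffMap_twist ζ s₀⟩

theorem IsBdd.twist_zpow {s : LaurentSeries Kbar} (h : IsBdd A s) (ζ : Kˣ) (hζ : (ζ : K) ∈ A)
    (hζ' : ((ζ⁻¹ : Kˣ) : K) ∈ A) (k : ℤ) :
    IsBdd A (S24.B.twist (Units.map (algebraMap K Kbar : K →* Kbar) ζ ^ k) s) := by
  have hz : ∀ k : ℤ, ((ζ ^ k : Kˣ) : K) ∈ A := by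
    intro k
    rcases Int.eq_nat_or_neg k with ⟨m, rfl | rfl⟩
    · rw [zpow_natCast, Units.val_pow_eq_pow_val]
      exact pow_mem hζ m
    · rw [zpow_neg, zpow_natCast, ← inv_pow, Units.val_pow_eq_pow_val]
      exact pow_mem hζ' m
  rw [← map_zpow]
  exact h.twist (ζ ^ k) (hz k) (by rw [← zpow_neg]; exact hz (-k))

theorem isBdd_coeffEmb (A : ValuationSubring K) {f : LaurentSeries ℚ}
    (hf : ∀ k : ℤ, ∃ z : ℤ, f.coeff k = (z : ℚ)) : IsBdd A (coeffEmb Kbar f) := by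
  refine isBdd_of_coeff fun n => ?_
  obtain ⟨z, hz⟩ := hf n
  refine ⟨(z : K), intCast_mem A z, ?_⟩
  rw [coeffEmb_coeff, hz, map_intCast, map_intCast]

end Fermat.Agent.S48.BB.V

end
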