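/-
S48, block BB, sub-block V, layer C1' (sub-architect helper297).  TASK BB-V-E3.
STUB: the statements are FROZEN (keep them verbatim); the task owner replaces every unfinished proof.
Helper lemmas: same file, private or prefixed `Emb.`.

`P.RM M = Subring.closure {ζ_M, 1/M} ⊆ ℚ̄` (P/Ring.lean).  Show `P.RM M ≤ A.toSubring.map (algebraMap K Kbar)` by
`Subring.closure_le`: `zetaK M` is a power of `zetaK (M * r)` (`(zetaK M) ^ (M * r) = 1`, `IsPrimitiveRoot.eq_pow_of_pow_eq_one`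
for `isPrimitiveRoot_zetaK (M * r)`; work in `Kbarˣ` or with `IsPrimitiveRoot.coe_units_iff`), hence the image of `ζ ^ i ∈ A`;
`(M : Kbar)⁻¹` is the image of `(M : K)⁻¹ ∈ A` (`map_inv₀`, `map_natCast`).
-/
import Fermat.Agent.S48.BB.V.L0
import Fermat.Agent.S48.BB.P.Ring

set_option autoImplicit false

noncomputable section

namespace Fermat.Agent.S48.BB.V

open Fermat.Agent.S24 Fermat.Agent.S24.B

variable {K : Type*} [Field K] [Algebra K Kbar]

theorem Emb.exists_of_mem_RM (M r : ℕ) [NeZero M] [NeZero r] (A : ValuationSubring K) (ζ : Kˣ)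
    (hζ : Units.map (algebraMap K Kbar : K →* Kbar) ζ = zetaK (M * r)) (hζA : (ζ : K) ∈ A)
    (hM : ((M : K))⁻¹ ∈ A) (c : Kbar) (hc : c ∈ P.RM M) :
    ∃ a ∈ A, algebraMap K Kbar a = c := by
  have hle : P.RM M ≤ A.toSubring.map (algebraMap K Kbar) := by
    rw [P.RM, Subring.closure_le]
    intro x hx
    rcases hx with hx | hx
    · -- `x = ζ_M`
      have h1 : ((zetaK M : Kbarˣ) : Kbar) ^ (M * r) = 1 := by
        rw [← Units.val_pow_eq_pow_val, pow_mul, (isPrimitiveRoot_zetaK M).pow_eq_one, one_pow,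
          Units.val_one]
      obtain ⟨i, -, hi⟩ := (IsPrimitiveRoot.coe_units_iff.2
        (isPrimitiveRoot_zetaK (M * r))).eq_pow_of_pow_eq_one h1
      refine ⟨(ζ : K) ^ i, pow_mem hζA i, ?_⟩
      have h2 : algebraMap K Kbar (ζ : K) = ((zetaK (M * r) : Kbarˣ) : Kbar) := by
        rw [← hζ]
        rfl
      rw [map_pow, h2, hx, ← hi]
    · -- `x = 1 / M`
      rw [Set.mem_singleton_iff] at hx
      refine ⟨((M : K))⁻¹, hM, ?_⟩
      rw [map_inv₀, map_natCast, hx]
  obtain ⟨a, ha, hac⟩ := hle hc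
  exact ⟨a, ha, hac⟩

end Fermat.Agent.S48.BB.V

end
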