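/-
S48, block BB, sub-block V, layer C1' (sub-architect helper297).  TASK BB-V-E1.
STUB: the statements are FROZEN (keep them verbatim); the task owner replaces every unfinished proof.
Helper lemmas: same file, private or prefixed `Emb.`.

`Emb.exists_zeta`: let `ζ₀ : K` be a primitive `N`-th root of unity; its image in `ℚ̄` is primitive
(`IsPrimitiveRoot.map_of_injective`), so `zetaK N = (image ζ₀) ^ i` (`IsPrimitiveRoot.eq_pow_of_pow_eq_one`,
`isPrimitiveRoot_zetaK`, `IsPrimitiveRoot.coe_units_iff`); take `ζ := (unit of ζ₀) ^ i` (`IsPrimitiveRoot.isUnit`/`Units.mk0`).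
A root of unity `x` lies in every valuation ring: `x ∈ A` or `x⁻¹ ∈ A` (`A.mem_or_inv_mem`), and `x = (x⁻¹) ^ (N - 1)`.
`Emb.isAlgebraic`: `ℚ̄` is algebraic over `ℚ` hence over `K` (`Algebra.IsAlgebraic.tower_top`; the tower
`IsScalarTower ℚ K Kbar` by `IsScalarTower.of_algebraMap_eq` + `Subsingleton.elim`/`RingHom.ext_rat`, or `IsScalarTower.rat`).
`Emb.inv_natCast_mem`: `GAL.KLInputs.isUnit_natCast`.
-/
import Fermat.Agent.S48.BB.V.L0
import Fermat.Agent.GAL.KLInputs.Arith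

set_option autoImplicit false

noncomputable section

namespace Fermat.Agent.S48.BB.V

open Fermat.Agent.S24 Fermat.Agent.S24.B

variable {K : Type*} [Field K] [Algebra K Kbar]

theorem Emb.rootOfUnity_mem (A : ValuationSubring K) {x : K} {n : ℕ} (hn : n ≠ 0) (hx : x ^ n = 1) :
    x ∈ A := by
  rcases A.mem_or_inv_mem x with h | h
  · exact h
  · have hx0 : x ≠ 0 := by
      rintro rfl
      rw [zero_pow hn] at hx
      exact zero_ne_one hx
    have e : x = x⁻¹ ^ (n - 1) := by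
      have h1 : x ^ (n - 1) * x = 1 := by rw [← pow_succ, Nat.sub_add_cancel (Nat.pos_of_ne_zero hn), hx]
      rw [inv_pow]
      exact eq_inv_of_mul_eq_one_right h1
    rw [e]
    exact A.pow_mem h _

theorem Emb.exists_zeta (N : ℕ) [NeZero N] (A : ValuationSubring K)
    (h : ∃ ζ : K, IsPrimitiveRoot ζ N) :
    ∃ ζ : Kˣ, Units.map (algebraMap K Kbar : K →* Kbar) ζ = zetaK N ∧ (ζ : K) ∈ A ∧
      ((ζ⁻¹ : Kˣ) : K) ∈ A := by
  obtain ⟨ζ₀, hζ₀⟩ := h
  have himg : IsPrimitiveRoot (algebraMap K Kbar ζ₀) N :=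
    hζ₀.map_of_injective (algebraMap K Kbar).injective
  have hz : ((zetaK N : Kbarˣ) : Kbar) ^ N = 1 :=
    (IsPrimitiveRoot.coe_units_iff.2 (isPrimitiveRoot_zetaK N)).pow_eq_one
  obtain ⟨i, -, hi⟩ := himg.eq_pow_of_pow_eq_one hz
  have hζ₀0 : ζ₀ ≠ 0 := hζ₀.ne_zero (NeZero.ne N)
  have hpow : (Units.mk0 ζ₀ hζ₀0 ^ i : Kˣ) ^ N = 1 := by
    rw [← pow_mul, mul_comm, pow_mul]
    have : (Units.mk0 ζ₀ hζ₀0 : Kˣ) ^ N = 1 := Units.ext (by simpa using hζ₀.pow_eq_one)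
    rw [this, one_pow]
  refine ⟨Units.mk0 ζ₀ hζ₀0 ^ i, ?_, ?_, ?_⟩
  · apply Units.ext
    rw [← hi]
    simp
  · refine Emb.rootOfUnity_mem A (NeZero.ne N) ?_
    have := congrArg (fun u : Kˣ => (u : K)) hpow
    simpa using this
  · refine Emb.rootOfUnity_mem A (NeZero.ne N) ?_
    have h1 : ((Units.mk0 ζ₀ hζ₀0 ^ i : Kˣ)⁻¹) ^ N = 1 := by rw [inv_pow, hpow, inv_one]
    have := congrArg (fun u : Kˣ => (u : K)) h1
    simpa using this

theorem Emb.isAlgebraic [Algebra ℚ K] : Algebra.IsAlgebraic K Kbar := by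
  have : IsScalarTower ℚ K Kbar := IsScalarTower.of_algebraMap_eq fun q =>
    congrFun (congrArg DFunLike.coe (Subsingleton.elim (algebraMap ℚ Kbar)
      ((algebraMap K Kbar).comp (algebraMap ℚ K)))) q
  have : Algebra.IsAlgebraic ℚ Kbar := AlgebraicClosure.isAlgebraic ℚ
  exact Algebra.IsAlgebraic.tower_top (K := ℚ) K

theorem Emb.inv_natCast_mem (A : ValuationSubring K) {p : ℕ} (hp : p.Prime)
    (hA : A.LiesOverPrime p) (n : ℕ) (hn : ¬ p ∣ n) : ((n : K))⁻¹ ∈ A := by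
  obtain ⟨u, hu⟩ := Fermat.Agent.GAL.KLInputs.isUnit_natCast A hp hA n hn
  have h1 : ((u : A) : K) = (n : K) := by rw [hu]; simp
  have h2 : (((u⁻¹ : Aˣ) : A) : K) = ((n : K))⁻¹ := by
    rw [← h1]
    have h3 : ((u : A) : K) * (((u⁻¹ : Aˣ) : A) : K) = 1 :=
      congrArg (fun a : A => (a : K)) (Units.mul_inv u)
    exact eq_inv_of_mul_eq_one_right h3
  rw [← h2]
  exact ((u⁻¹ : Aˣ) : A).2

end Fermat.Agent.S48.BB.V

end
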