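/-
S48, block BB, sub-block V, layer C1' + (v) (helper297).  CONCRETE PART.

* `isGood_F1Q`, `isGood_full` : the hypothesis `hg` of `e0` for `(F1Q M r, H1 M r)` and `(modularFunctionFieldFull N, Γ₀(N))`;
* `uK M r a` : `u_a` as an element of `K F1Q`; `embLL_uK`, `smul_embLL_uK`.
-/
import Fermat.Agent.S48.BB.V.Emb.Gen
import Fermat.Agent.S48.BB.V.Emb.Zeta
import Fermat.Agent.S48.BB.V.Emb.Bdd
import Fermat.Agent.S48.BB.V.Emb.RM
import Fermat.Agent.S48.BB.V.JBdd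
import Fermat.Agent.S48.BB.V.LvlFull
import Fermat.Agent.S48.BB.V.H1
import Fermat.Agent.S48.BB.V.UQ
import Fermat.Agent.S48.BB.W.Lvl
import Fermat.Agent.S48.BB.P.LL

set_option autoImplicit false
set_option linter.unusedSectionVars false

noncomputable section

namespace Fermat.Agent.S48.BB.V

open ModularCurve CongruenceSubgroup IntermediateField
open Fermat.Agent.S24 Fermat.Agent.S24.B Fermat.Agent.GAL.Mult Fermat.Agent.S36.Mod
  Fermat.Agent.S18.Vert Fermat.Agent.S18.Descent Fermat.Agent.S48.BB.U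
open scoped MatrixGroups

variable {K : Type*} [Field K] [Algebra ℚ K] [Algebra K Kbar] (A : ValuationSubring K)

theorem Gamma_le_Gamma0' (N : ℕ) : Gamma N ≤ Gamma0 N := fun γ hγ => by
  rw [Gamma_mem] at hγ
  exact Gamma0_mem.mpr hγ.2.2.1

/-- the translates of `j(dτ)` are bounded -/
theorem isBdd_smul_PsiL_JF (N d : ℕ) [NeZero N] [NeZero d] (hd : d ∣ N) (ζ : Kˣ)
    (hζ : Units.map (algebraMap K Kbar : K →* Kbar) ζ = zetaK N) (hζA : (ζ : K) ∈ A)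
    (hζA' : ((ζ⁻¹ : Kˣ) : K) ∈ A) (γ : SL(2, ℤ)) :
    IsBdd A (texpLL N (γ • PsiL N (JF N d hd))) := by
  obtain ⟨e, he, k, h⟩ := exists_texpLL_smul_PsiL_JF N d hd γ
  rw [h, ← hζ, Formal.Jser_one]
  have h1 : IsBdd A (coeffEmb Kbar jq) := isBdd_coeffEmb A fun k => by
    have := qExpand_jq_coeff_int 1 k
    rwa [qExpand_one_apply] at this
  exact (h1.twist_zpow ζ hζA hζA' k).qExpand e

/-- the translates of `u_a` are bounded -/
theorem isBdd_smul_uaLL (M r : ℕ) [NeZero M] [NeZero r] (ζ : Kˣ)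
    (hζ : Units.map (algebraMap K Kbar : K →* Kbar) ζ = zetaK (M * r)) (hζA : (ζ : K) ∈ A)
    (hM : ((M : K))⁻¹ ∈ A) (a : ZMod M) (γ : SL(2, ℤ)) :
    IsBdd A (texpLL (M * r) (γ • P.uaLL M r a)) :=
  isBdd_of_coeff fun n =>
    Emb.exists_of_mem_RM M r A ζ hζ hζA hM _ (P.texpLL_smul_uaLL_mem M r a γ n)

/-- **(iv)** for `Γ₀(N)`. -/
theorem isGood_full (N : ℕ) [NeZero N] (ζ : Kˣ)
    (hζ : Units.map (algebraMap K Kbar : K →* Kbar) ζ = zetaK N) (hζA : (ζ : K) ∈ A)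
    (hζA' : ((ζ⁻¹ : Kˣ) : K) ∈ A) (f : laurentBaseChange K (modularFunctionFieldFull N)) :
    IsGood N A (embLL (isLvl_full N) f) := by
  refine isGood_embLL (isLvl_full N) (Gamma_le_Gamma0' N) A (divisorExpansions N) rfl ?_ f
  rintro s hs ⟨d, hd0, hd, rfl⟩ γ
  rw [Psi_ofQ_eq (isLvl_full N) ⟨_, hs⟩ (W.realises_PsiL_JF N d hd)]
  exact isBdd_smul_PsiL_JF A N d hd ζ hζ hζA hζA' γ

/-- **(iv)** for `±Γ₁(M) ∩ Γ₀(M r)`. -/
theorem isGood_F1Q (M r : ℕ) [NeZero M] [NeZero r] (ζ : Kˣ)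
    (hζ : Units.map (algebraMap K Kbar : K →* Kbar) ζ = zetaK (M * r)) (hζA : (ζ : K) ∈ A)
    (hζA' : ((ζ⁻¹ : Kˣ) : K) ∈ A) (hM : ((M : K))⁻¹ ∈ A) (f : laurentBaseChange K (F1Q M r)) :
    IsGood (M * r) A (embLL (W.isLvl_F1Q M r) f) := by
  refine isGood_embLL (W.isLvl_F1Q M r) (Gamma_le_H1 M r) A _ (W.F1Q_eq_adjoin M r) ?_ f
  rintro s hs (⟨a, rfl⟩ | ⟨d, hd0, hd, rfl⟩) γ
  · rw [Psi_ofQ_eq (W.isLvl_F1Q M r) ⟨_, hs⟩ (P.realises_uaLL M r a)]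
    exact isBdd_smul_uaLL A M r ζ hζ hζA hM a γ
  · rw [Psi_ofQ_eq (W.isLvl_F1Q M r) ⟨_, hs⟩ (W.realises_PsiL_JF (M * r) d hd)]
    exact isBdd_smul_PsiL_JF A (M * r) d hd ζ hζ hζA hζA' γ

/-- **(iv)**, packaged with the hypotheses of `VertStatement`. -/
theorem exists_isGood (M r p : ℕ) [NeZero M] [NeZero r] (hp : p.Prime) (hpN : ¬ p ∣ M * r)
    (hA : A.LiesOverPrime p) (h : ∃ ζ : K, IsPrimitiveRoot ζ (M * r)) :
    (∀ f : laurentBaseChange K (F1Q M r), IsGood (M * r) A (embLL (W.isLvl_F1Q M r) f)) ∧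
      ∀ f : laurentBaseChange K (modularFunctionFieldFull (M * r)),
        IsGood (M * r) A (embLL (isLvl_full (M * r)) f) := by
  obtain ⟨ζ, hζ, hζA, hζA'⟩ := Emb.exists_zeta (M * r) A h
  have hM : ((M : K))⁻¹ ∈ A :=
    Emb.inv_natCast_mem A hp hA M fun hd => hpN (Dvd.dvd.mul_right hd r)
  exact ⟨isGood_F1Q A M r ζ hζ hζA hζA' hM, isGood_full A (M * r) ζ hζ hζA hζA'⟩

variable (K) in
/-- `u_a` as an element of `K F1Q`. -/
def uK (M r : ℕ) [NeZero (M * r)] (a : ZMod M) : laurentBaseChange K (F1Q M r) :=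
  ⟨coeffEmb K (uQ M a), coeffEmb_mem_laurentBaseChange K
    ((le_sup_left : IntermediateField.adjoin ℚ (Set.range (uQ M)) ≤ F1Q M r)
      (IntermediateField.subset_adjoin ℚ _ ⟨a, rfl⟩))⟩

theorem coe_uK (M r : ℕ) [NeZero (M * r)] (a : ZMod M) :
    ((uK K M r a : laurentBaseChange K (F1Q M r)) : LaurentSeries K) = coeffEmb K (uQ M a) := rfl

theorem embLL_uK (M r : ℕ) [NeZero M] [NeZero r] (a : ZMod M) :
    embLL (W.isLvl_F1Q M r) (uK K M r a) = P.uaLL M r a := by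
  have h := embLL_coeffEmb (K := K) (W.isLvl_F1Q M r) (uQ M a)
    ((le_sup_left : IntermediateField.adjoin ℚ (Set.range (uQ M)) ≤ F1Q M r)
      (IntermediateField.subset_adjoin ℚ _ ⟨a, rfl⟩))
  exact h.trans (Psi_ofQ_eq (W.isLvl_F1Q M r) ⟨uQ M a, _⟩ (P.realises_uaLL M r a))

/-- **(v)** -/
theorem smul_embLL_uK (M r : ℕ) [NeZero M] [NeZero r] (a : ZMod M) (b : SL(2, ℤ))
    (hb : b ∈ Gamma0 (M * r)) :
    b • embLL (W.isLvl_F1Q M r) (uK K M r a) =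
      embLL (W.isLvl_F1Q M r) (uK K M r (a * ((b 1 1 : ℤ) : ZMod M))) := by
  have hb' : b⁻¹ ∈ Gamma0 M := by
    apply Subgroup.inv_mem
    rw [Gamma0_mem] at hb ⊢
    rw [CharP.intCast_eq_zero_iff (ZMod (M * r)) (M * r)] at hb
    rw [CharP.intCast_eq_zero_iff (ZMod M) M]
    exact dvd_trans ⟨(r : ℤ), by push_cast; ring⟩ hb
  have h := P.inv_smul_uaLL M r a b⁻¹ hb'
  rw [inv_inv] at h
  have h2 : ((b⁻¹ : SL(2, ℤ)) 0 0 : ℤ) = b 1 1 := by
    rw [Matrix.SpecialLinearGroup.coe_inv, Matrix.adjugate_fin_two]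
    rfl
  rw [embLL_uK, embLL_uK, h, h2]

/-- **(v)** in `L0`. -/
theorem smul_e0_uK {A : ValuationSubring K} (M r : ℕ) [NeZero M] [NeZero r]
    (hg : ∀ f : laurentBaseChange K (F1Q M r), IsGood (M * r) A (embLL (W.isLvl_F1Q M r) f))
    (a : ZMod M) (b : SL(2, ℤ)) (hb : b ∈ Gamma0 (M * r)) :
    b • e0 (W.isLvl_F1Q M r) hg (uK K M r a) =
      e0 (W.isLvl_F1Q M r) hg (uK K M r (a * ((b 1 1 : ℤ) : ZMod M))) :=
  Subtype.ext (smul_embLL_uK M r a b hb)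

/-- compatibility of the two embeddings -/
theorem embLL_inclusion (M r : ℕ) [NeZero M] [NeZero r]
    (f : laurentBaseChange K (modularFunctionFieldFull (M * r)))
    (hf : (f : LaurentSeries K) ∈ laurentBaseChange K (F1Q M r)) :
    embLL (W.isLvl_F1Q M r) (⟨f, hf⟩ : laurentBaseChange K (F1Q M r)) =
      embLL (isLvl_full (M * r)) f :=
  texpLL_injective (by rw [texpLL_embLL, texpLL_embLL])

end Fermat.Agent.S48.BB.V

end
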