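/-
S48, block BB, sub-block V, layer C (sub-architect helper297).  TASK BB-V-E5.
Helper lemmas: same file, private or prefixed `Emb.`.

The uniformiser of `V0 N A = (phi0 N A).val` and the residue map `res0 = (phi0 N A).res`.
`phi0_c0`: `phi0_eq_iff`, `AlgHom.commutes`, `coeffMap_algebraMap'`.
`isUnif_c0`: `S36.Mod.IntEmb.isUnif_val hπ (U := 1)` (`map_one`, `one_ne_zero`, `mul_one`, `inc_C`).
`inv_c0_notMem_V0`, `exists_eq_c0_mul`: from `S18.IsUnif` (S18/Defs.lean: fields `mem`, `inv_notMem`-like, and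
`∀ y ≠ 0, ∃ n : ℤ, y / ϖ ^ n` unit): if `y ∈ V`, `y⁻¹ ∉ V` then `y ≠ 0`, `y = ϖ ^ n * u` with `n ≥ 1`
(if `n ≤ 0` then `y⁻¹ = ϖ ^ (-n) * u⁻¹ ∈ V`), `z := ϖ ^ (n - 1) * u`.  Or directly with `IntEmb.mem_nonunits_iff`,
`red_eq_zero_iff hπ`: `y⁻¹ ∉ V` means `res y = 0` (`inv_mem_val_iff`), so `y Q = P`, `P = C π * P'`, and `z` with `z Q = P'`, i.e. `z = (c0 π)⁻¹ * y`.
`inv_mem_V0_of_res0_ne_zero`: `IntEmb.inv_mem_val_iff`.
-/
import Fermat.Agent.S48.BB.V.Emb.Gen
import Fermat.Agent.S18.Chart.Unif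

set_option autoImplicit false
set_option linter.unusedSectionVars false

noncomputable section

namespace Fermat.Agent.S48.BB.V

open ModularCurve CongruenceSubgroup IntermediateField
open Fermat.Agent.S24 Fermat.Agent.S24.B Fermat.Agent.GAL.Mult Fermat.Agent.S36.Mod
  Fermat.Agent.S18.Vert Fermat.Agent.S18.Descent Fermat.Agent.S48.BB.U
open scoped MatrixGroups

variable {F₀ : IntermediateField ℚ (LaurentSeries ℚ)} {H : Subgroup SL(2, ℤ)}
variable (N : ℕ) [NeZero N]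
variable {K : Type*} [Field K] [Algebra ℚ K] [Algebra K Kbar] (A : ValuationSubring K)

/-- The constants of `K` in `L0 N A`. -/
def c0 (c : K) : L0 N A := ⟨algebraMap Kbar (LL N) (algebraMap K Kbar c), isGood_algebraMap A c⟩

variable {N A}

theorem e0_algebraMap (hL : IsLvl F₀ H N)
    (hg : ∀ f : laurentBaseChange K F₀, IsGood N A (embLL hL f)) (c : K) :
    e0 hL hg (algebraMap K (laurentBaseChange K F₀) c) = c0 N A c :=
  Subtype.ext (embLL_algebraMap hL c)

theorem smul_c0 (σ : SL(2, ℤ)) (c : K) : σ • c0 N A c = c0 N A c :=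
  Subtype.ext (smul_algebraMap_Kbar_LL σ _)

theorem phi0_c0 (c : K) : (phi0 N A).toHom (c0 N A c) = algebraMap K (LaurentSeries K) c := by
  rw [phi0_eq_iff, coeffMap_algebraMap']
  exact AlgHom.commutes _ _

variable [IsDiscreteValuationRing A]

theorem isUnif_c0 {π : A} (hπ : Irreducible π) : S18.IsUnif (V0 N A) (c0 N A (π : K)) := by
  refine IntEmb.isUnif_val (phi0 N A) hπ (U := 1) (by rw [map_one]; exact one_ne_zero) ?_
  rw [mul_one, inc_C, phi0_c0]

/-- **(hϖ)** -/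
theorem inv_c0_notMem_V0 {π : A} (hπ : Irreducible π) : (c0 N A (π : K))⁻¹ ∉ V0 N A :=
  (isUnif_c0 hπ).inv_notMem

/-- **(hunif)** -/
theorem exists_eq_c0_mul {π : A} (hπ : Irreducible π) (y : L0 N A) (hy : y ∈ V0 N A)
    (hy' : y⁻¹ ∉ V0 N A) : ∃ z ∈ V0 N A, y = c0 N A (π : K) * z := by
  have hU := isUnif_c0 (N := N) hπ
  refine ⟨y / c0 N A (π : K), hU.div_mem hy hy', ?_⟩
  rw [mul_div_cancel₀ _ hU.ne_zero]

variable (N A) in
/-- The residue map of `V0 N A`. -/
def res0 : V0 N A →+* LaurentSeries (IsLocalRing.ResidueField A) := (phi0 N A).res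

/-- **(hres)** -/
theorem inv_mem_V0_of_res0_ne_zero (y : V0 N A) (h : res0 N A y ≠ 0) :
    ((y : L0 N A))⁻¹ ∈ V0 N A :=
  ((phi0 N A).inv_mem_val_iff y).2 (Or.inr h)

/-- an element with integral expansion is in `V0`, and its residue is the reduction of the expansion -/
theorem mem_V0_of_phi0_eq_inc {y : L0 N A} {P : LaurentSeries A}
    (h : (phi0 N A).toHom y = inc A P) : y ∈ V0 N A :=
  (phi0 N A).mem_val_of_eq_inc h

theorem res0_of_phi0_eq_inc {y : L0 N A} {P : LaurentSeries A}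
    (h : (phi0 N A).toHom y = inc A P) : res0 N A ⟨y, mem_V0_of_phi0_eq_inc h⟩ = red A P :=
  (phi0 N A).res_of_eq_inc h

end Fermat.Agent.S48.BB.V

end
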