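/-
S48, block BB, sub-block V, layer C (sub-architect helper297).  TASK BB-V-E6.
STUB: the statements are FROZEN (keep them verbatim); the task owner replaces every unfinished proof.
Helper lemmas: same file, private or prefixed `Emb.`.

(hsep) the elements of `Γ₀(M r)` outside `H1 M r` act nontrivially on the residue of `u_1`.
`exists_phi0_e0_uK`: `phi0_e0`, `coe_uK`; the series `qExpand K (M*r) (coeffEmb K (uQ M a))` has coefficients in `A` (integers:
`uQ_coeff_int`, V/UQ.lean), so it is `inc A P` (`S18.Vert.mem_range_inc_iff` / `liftS`); `(P.coeff ((M*r) * k) : K) = ((uQ M a).coeff k : K)`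
(`qExpand_coeff_mul`, `coeffEmb_coeff`).
`exists_res0_ne`: `f := uK K M r 1`; `b • e0 f = e0 (uK (1 * b₁₁))` (`smul_e0_uK`).  `b ∉ H1 M r` gives `b₁₁ ≠ ±1` in `ZMod M`:
otherwise `b₀₀ = ±1` (`b₀₀ b₁₁ = 1` in `ZMod M` because `M ∣ b₁₀`: determinant) and `mem_H1_of_entry`.  In particular `3 ≤ M`
(for `M = 1, 2` every unit is `±1`: if `M ≤ 2`, `b₁₁` is a unit of `ZMod M`, so `b₁₁ = 1`; `interval_cases M`, or: `M = 1` subsingleton,
`M = 2`: `b₁₁ ≠ 0`, `decide`-type argument on `ZMod 2`).  Compare the coefficients of index `(M r) * 3` of the two residues: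
`res0_of_phi0_eq_inc`, `red_coeff`: `residue 1 = 1 ≠ 0 = residue 0` (`uQ_one_coeff_three`, `uQ_coeff_three`).
-/
import Fermat.Agent.S48.BB.V.Emb.Conc
import Fermat.Agent.S48.BB.V.Emb.Unif

set_option autoImplicit false
set_option linter.unusedSectionVars false

noncomputable section

namespace Fermat.Agent.S48.BB.V

open ModularCurve CongruenceSubgroup IntermediateField
open Fermat.Agent.S24 Fermat.Agent.S24.B Fermat.Agent.GAL.Mult Fermat.Agent.S36.Mod
  Fermat.Agent.S18.Vert Fermat.Agent.S18.Descent Fermat.Agent.S48.BB.U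
open scoped MatrixGroups

variable {K : Type*} [Field K] [Algebra ℚ K] [Algebra K Kbar] {A : ValuationSubring K}

theorem exists_phi0_e0_uK (M r : ℕ) [NeZero M] [NeZero r]
    (hg : ∀ f : laurentBaseChange K (F1Q M r), IsGood (M * r) A (embLL (W.isLvl_F1Q M r) f))
    (a : ZMod M) :
    ∃ P : LaurentSeries A, (phi0 (M * r) A).toHom (e0 (W.isLvl_F1Q M r) hg (uK K M r a)) = inc A P ∧
      ∀ k : ℤ, ((P.coeff (((M * r : ℕ) : ℤ) * k) : A) : K) = algebraMap ℚ K ((uQ M a).coeff k) := by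
  have hA : ∀ n, (qExpand K (M * r) (coeffEmb K (uQ M a))).coeff n ∈ A := by
    intro n
    by_cases hn : ((M * r : ℕ) : ℤ) ∣ n
    · obtain ⟨k, rfl⟩ := hn
      rw [qExpand_coeff_mul, coeffEmb_coeff]
      obtain ⟨z, hz⟩ := uQ_coeff_int M a k
      rw [hz, map_intCast]
      exact intCast_mem A z
    · rw [qExpand_coeff_of_not_dvd _ _ hn]
      exact A.zero_mem
  refine ⟨liftS A _ hA, ?_, fun k => ?_⟩
  · rw [phi0_e0, coe_uK, inc_liftS]
  · show (qExpand K (M * r) (coeffEmb K (uQ M a))).coeff (((M * r : ℕ) : ℤ) * k) = _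
    rw [qExpand_coeff_mul, coeffEmb_coeff]

private theorem Emb.unit_small : ∀ M : ℕ, M ≤ 2 → ∀ u v : ZMod M, u * v = 1 → v = 1 ∨ v = -1
  | 0, _, u, v, h => by
    have h1 : IsUnit (v : ℤ) := IsUnit.of_mul_eq_one (u : ℤ) (by rw [mul_comm]; exact h)
    exact Int.isUnit_iff.1 h1
  | 1, _, u, v, _ => by revert u v; decide
  | 2, _, u, v, h => by revert u v; decide

theorem entry_ne_of_notMem_H1 (M r : ℕ) (b : SL(2, ℤ)) (hb : b ∈ Gamma0 (M * r))
    (hb' : b ∉ H1 M r) :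
    3 ≤ M ∧ ((b 1 1 : ℤ) : ZMod M) ≠ 1 ∧ ((b 1 1 : ℤ) : ZMod M) ≠ -1 := by
  have h10 : ((b 1 0 : ℤ) : ZMod M) = 0 := by
    have h := Gamma0_mem.mp hb
    rw [CharP.intCast_eq_zero_iff (ZMod (M * r)) (M * r)] at h
    rw [CharP.intCast_eq_zero_iff (ZMod M) M]
    exact dvd_trans ⟨(r : ℤ), by push_cast; ring⟩ h
  have hmul : ((b 0 0 : ℤ) : ZMod M) * ((b 1 1 : ℤ) : ZMod M) = 1 := by
    have h := b.2
    rw [Matrix.det_fin_two] at h
    have h2 := congrArg (Int.cast : ℤ → ZMod M) h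
    push_cast at h2
    rw [h10, mul_zero, sub_zero] at h2
    exact h2
  have h1 : ((b 1 1 : ℤ) : ZMod M) ≠ 1 := by
    intro h
    rw [h, mul_one] at hmul
    exact hb' (mem_H1_of_entry M r b hb (Or.inl hmul))
  have h2 : ((b 1 1 : ℤ) : ZMod M) ≠ -1 := by
    intro h
    rw [h, mul_neg, mul_one, neg_eq_iff_eq_neg] at hmul
    exact hb' (mem_H1_of_entry M r b hb (Or.inr hmul))
  refine ⟨?_, h1, h2⟩
  by_contra hM
  rcases Emb.unit_small M (by omega) _ _ hmul with h | h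
  · exact h1 h
  · exact h2 h

variable [IsDiscreteValuationRing A]

theorem e0_uK_mem_V0 (M r : ℕ) [NeZero M] [NeZero r]
    (hg : ∀ f : laurentBaseChange K (F1Q M r), IsGood (M * r) A (embLL (W.isLvl_F1Q M r) f))
    (a : ZMod M) : e0 (W.isLvl_F1Q M r) hg (uK K M r a) ∈ V0 (M * r) A := by
  obtain ⟨P, hP, -⟩ := exists_phi0_e0_uK M r hg a
  exact mem_V0_of_phi0_eq_inc hP

/-- **(hsep)** -/
theorem exists_res0_ne (M r : ℕ) [NeZero M] [NeZero r]
    (hg : ∀ f : laurentBaseChange K (F1Q M r), IsGood (M * r) A (embLL (W.isLvl_F1Q M r) f))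
    (b : SL(2, ℤ)) (hb : b ∈ Gamma0 (M * r)) (hb' : b ∉ H1 M r) :
    ∃ f : laurentBaseChange K (F1Q M r), ∃ (h1 : e0 (W.isLvl_F1Q M r) hg f ∈ V0 (M * r) A)
      (h2 : b • e0 (W.isLvl_F1Q M r) hg f ∈ V0 (M * r) A),
      res0 (M * r) A ⟨_, h2⟩ ≠ res0 (M * r) A ⟨_, h1⟩ := by
  obtain ⟨hM, hb1, hb2⟩ := entry_ne_of_notMem_H1 M r b hb hb'
  obtain ⟨P1, hP1, hc1⟩ := exists_phi0_e0_uK M r hg (1 : ZMod M)
  obtain ⟨P2, hP2, hc2⟩ := exists_phi0_e0_uK M r hg ((1 : ZMod M) * ((b 1 1 : ℤ) : ZMod M))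
  have hP2' : (phi0 (M * r) A).toHom (b • e0 (W.isLvl_F1Q M r) hg (uK K M r 1)) = inc A P2 := by
    rw [smul_e0_uK M r hg 1 b hb]
    exact hP2
  refine ⟨uK K M r 1, mem_V0_of_phi0_eq_inc hP1, mem_V0_of_phi0_eq_inc hP2', ?_⟩
  rw [res0_of_phi0_eq_inc hP1, res0_of_phi0_eq_inc hP2']
  intro h
  have h3 := congrArg (fun x => HahnSeries.coeff x (((M * r : ℕ) : ℤ) * 3)) h
  simp only [red_coeff] at h3
  have e1 : P1.coeff (((M * r : ℕ) : ℤ) * 3) = 1 := Subtype.ext (by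
    rw [hc1, uQ_one_coeff_three M hM, map_one]
    rfl)
  have e2 : P2.coeff (((M * r : ℕ) : ℤ) * 3) = 0 := Subtype.ext (by
    rw [hc2, uQ_coeff_three M _ (by rwa [one_mul]) (by rwa [one_mul]), map_zero]
    rfl)
  rw [e1, e2, map_zero, map_one] at h3
  exact zero_ne_one h3

end Fermat.Agent.S48.BB.V

end
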