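/-
S48, block BB, sub-block V, layer C (sub-architect helper297).  TASK BB-V-E4.
STUB: the statements are FROZEN (keep them verbatim); the task owner replaces every unfinished proof.
Helper lemmas: same file, private or prefixed `Emb.`.

(hfixE) `SL(2,ℤ)` fixes the image of `K(j)`.
`smul_embLL_of_mem_adjoin`: `IntermediateField.adjoin_induction` on `hf` (as in `isGood_embLL`, Emb/Gen.lean):
generator: `x = ⟨coeffEmb K jq, _⟩` (`Subtype.ext hx`), `embLL_coeffEmb`, `Psi hL (ofQ ⟨jq, hL.j_mem⟩) = Psi hL (jB hL)` is `rfl`,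
`U.smul_Psi_jB`;  constants: `embLL_algebraMap`, `smul_algebraMap_Kbar_LL`;  `smul_add`, `smul_mul'`, `smul_inv''`, `map_add`, ...
-/
import Fermat.Agent.S48.BB.V.Emb.Gen

set_option autoImplicit false
set_option linter.unusedSectionVars false

noncomputable section

namespace Fermat.Agent.S48.BB.V

open ModularCurve CongruenceSubgroup IntermediateField
open Fermat.Agent.S24 Fermat.Agent.S24.B Fermat.Agent.GAL.Mult Fermat.Agent.S36.Mod
  Fermat.Agent.S18.Vert Fermat.Agent.S18.Descent Fermat.Agent.S48.BB.U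
open scoped MatrixGroups

variable {F₀ : IntermediateField ℚ (LaurentSeries ℚ)} {H : Subgroup SL(2, ℤ)} {N : ℕ} [NeZero N]
variable {K : Type*} [Field K] [Algebra ℚ K] [Algebra K Kbar] {A : ValuationSubring K}

theorem smul_embLL_of_mem_adjoin (hL : IsLvl F₀ H N) (x : laurentBaseChange K F₀)
    (hx : (x : LaurentSeries K) = coeffEmb K jq) (σ : SL(2, ℤ)) (f : laurentBaseChange K F₀)
    (hf : f ∈ K⟮x⟯) : σ • embLL hL f = embLL hL f := by
  have hxj : embLL hL x = Psi hL (jB hL) := by
    have h1 : x = (⟨coeffEmb K jq, coeffEmb_mem_laurentBaseChange K hL.j_mem⟩ :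
        laurentBaseChange K F₀) := Subtype.ext hx
    rw [h1, embLL_coeffEmb hL jq hL.j_mem]
    rfl
  induction hf using IntermediateField.adjoin_induction with
  | mem y hy =>
    rw [Set.mem_singleton_iff] at hy
    rw [hy, hxj, smul_Psi_jB]
  | algebraMap c => rw [embLL_algebraMap, smul_algebraMap_Kbar_LL]
  | add a b _ _ ha hb => rw [map_add, smul_add, ha, hb]
  | inv a _ ha => rw [map_inv₀, smul_inv'', ha]
  | mul a b _ _ ha hb => rw [map_mul, smul_mul', ha, hb]

/-- **(hfixE)** -/
theorem smul_e0_of_mem_adjoin (hL : IsLvl F₀ H N)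
    (hg : ∀ f : laurentBaseChange K F₀, IsGood N A (embLL hL f)) (x : laurentBaseChange K F₀)
    (hx : (x : LaurentSeries K) = coeffEmb K jq) (σ : SL(2, ℤ)) (f : laurentBaseChange K F₀)
    (hf : f ∈ K⟮x⟯) : σ • e0 hL hg f = e0 hL hg f :=
  Subtype.ext (smul_embLL_of_mem_adjoin hL x hx σ f hf)

end Fermat.Agent.S48.BB.V

end
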